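import Mathlib
import Fermat.Agent.S41.Spec.New
import Fermat.Agent.S41.H581.TransferBasic

/-!
# Row S41, block NEW, leaf NEW-2a (helper863): the transfer in right coset representatives

* `transfer_eq_prod_reps` : Mathlib's `MonoidHom.transfer ϕ g` for a subgroup `H ≤ G` of finite
  index, computed in a system `s : ι → G` of representatives of the right cosets `H \ G`:
  if `s x * g = k x * s (σ x)` with `k x ∈ H`, then `transfer ϕ g = ∏ x, ϕ (k x)`.
* `finiteIndex_of_reps` : such a finite system forces `H` to have finite index.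
* `newTransferReps : Spec.NewTransferRepsStatement` (exact shape of `Spec/New.lean`).
* `newTransferAdd : Spec.NewTransferAddStatement`.
-/

set_option autoImplicit false

namespace Fermat.Agent.S41.H863

open Subgroup Subgroup.leftTransversals
open Fermat.Agent.S41.Spec

section Reps

variable {G : Type*} [Group G] (H : Subgroup G)

/-- The map `x ↦ (s x)⁻¹ H` is a bijection `ι → G ⧸ H` for a system of representatives of the
right cosets. -/
theorem bijective_reps {ι : Type*} (s : ι → G)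
    (hinj : ∀ x y : ι, s x * (s y)⁻¹ ∈ H → x = y)
    (hsurj : ∀ g : G, ∃ x : ι, g * (s x)⁻¹ ∈ H) :
    Function.Bijective (fun x : ι => (((s x)⁻¹ : G) : G ⧸ H)) := by
  constructor
  · intro x y hxy
    have h1 := QuotientGroup.eq.mp hxy
    rw [inv_inv] at h1
    exact hinj x y h1
  · intro q
    induction q using QuotientGroup.induction_on with
    | H a =>
      obtain ⟨x, hx⟩ := hsurj a⁻¹
      refine ⟨x, ?_⟩
      show (((s x)⁻¹ : G) : G ⧸ H) = (a : G ⧸ H)
      rw [QuotientGroup.eq, inv_inv]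
      have h2 := H.inv_mem hx
      rwa [mul_inv_rev, inv_inv, inv_inv] at h2

theorem finiteIndex_of_reps {ι : Type*} [Finite ι] (s : ι → G)
    (hinj : ∀ x y : ι, s x * (s y)⁻¹ ∈ H → x = y)
    (hsurj : ∀ g : G, ∃ x : ι, g * (s x)⁻¹ ∈ H) : H.FiniteIndex := by
  haveI : Finite (G ⧸ H) :=
    Finite.of_equiv ι (Equiv.ofBijective _ (bijective_reps H s hinj hsurj))
  exact Subgroup.finiteIndex_of_finite_quotient

variable {H} {A : Type*} [CommGroup A]

/-- Mathlib's transfer in a system of representatives of the right cosets `H \ G`. -/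
theorem transfer_eq_prod_reps [H.FiniteIndex] (ϕ : H →* A) {ι : Type*} [Fintype ι] (s : ι → G)
    (hinj : ∀ x y : ι, s x * (s y)⁻¹ ∈ H → x = y)
    (hsurj : ∀ g : G, ∃ x : ι, g * (s x)⁻¹ ∈ H)
    (g : G) (σ : ι → ι) (k : ι → H) (hk : ∀ x, s x * g = (k x : G) * s (σ x)) :
    MonoidHom.transfer ϕ g = ∏ x : ι, ϕ (k x) := by
  classical
  let e : ι ≃ G ⧸ H := Equiv.ofBijective _ (bijective_reps H s hinj hsurj)
  have he : ∀ x : ι, e x = (((s x)⁻¹ : G) : G ⧸ H) := fun x => rfl
  let F : G ⧸ H → G := fun q => (s (e.symm q))⁻¹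
  have hF : ∀ q : G ⧸ H, (F q : G ⧸ H) = q := fun q => by
    show (((s (e.symm q))⁻¹ : G) : G ⧸ H) = q
    rw [← he, e.apply_symm_apply]
  let T : H.LeftTransversal := ⟨Set.range F, isComplement_range_left hF⟩
  have hT : ∀ q : G ⧸ H, (T.2.leftQuotientEquiv q : G) = F q :=
    fun q => IsComplement.leftQuotientEquiv_apply hF q
  -- the action of `g⁻¹` on the cosets
  have hσ : ∀ x : ι, g⁻¹ • e x = e (σ x) := by
    intro x
    rw [he, he]
    show ((g⁻¹ * (s x)⁻¹ : G) : G ⧸ H) = (((s (σ x))⁻¹ : G) : G ⧸ H)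
    rw [QuotientGroup.eq]
    have h1 : (g⁻¹ * (s x)⁻¹)⁻¹ * (s (σ x))⁻¹ = (k x : G) := by
      rw [mul_inv_rev, inv_inv, inv_inv, hk x, mul_assoc, mul_inv_cancel, mul_one]
    rw [h1]
    exact (k x).2
  rw [MonoidHom.transfer_def ϕ T g]
  unfold diff
  let _ := H.fintypeQuotientOfFiniteIndex
  refine (Fintype.prod_equiv e _ _ fun x => ?_).symm
  congr 1
  apply Subtype.ext
  show (k x : G) = ((T.2.leftQuotientEquiv (e x) : G))⁻¹ * ((g • T).2.leftQuotientEquiv (e x) : G)
  rw [smul_apply_eq_smul_apply_inv_smul, hT, hT, hσ x]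
  show (k x : G) = ((s (e.symm (e x)))⁻¹)⁻¹ * (g * (s (e.symm (e (σ x))))⁻¹)
  rw [e.symm_apply_apply, e.symm_apply_apply, inv_inv, ← mul_assoc, hk x, mul_assoc,
    mul_inv_cancel, mul_one]

end Reps

/-- **NEW-2a** (exact shape of `Spec.NewTransferRepsStatement`). -/
theorem newTransferReps : Spec.NewTransferRepsStatement := by
  intro H G _ _ A _ f hf ι _ s hinj hsurj ψ g σ k hk
  have hfin : f.range.FiniteIndex := finiteIndex_of_reps f.range s hinj hsurj
  rw [Fermat.Agent.S41.H581.transferAlong_apply_of f ⟨hf, hfin⟩ ψ g]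
  haveI := hfin
  have key := transfer_eq_prod_reps
    ((AddMonoidHom.toMultiplicativeRight ψ).comp (MonoidHom.ofInjective hf).symm.toMonoidHom)
    s hinj hsurj g σ (fun x => ⟨f (k x), ⟨k x, rfl⟩⟩) (fun x => hk x)
  rw [key, toAdd_prod]
  refine Finset.sum_congr rfl fun x _ => ?_
  have h1 : (MonoidHom.ofInjective hf).symm ⟨f (k x), ⟨k x, rfl⟩⟩ = k x := by
    apply (MonoidHom.ofInjective hf).injective
    rw [MulEquiv.apply_symm_apply]
    rfl
  simp only [MonoidHom.comp_apply, MulEquiv.coe_toMonoidHom, h1]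
  rfl

/-- **NEW-3c** additivity of the two transfers. -/
theorem newTransferAdd : Spec.NewTransferAddStatement := by
  intro N q ψ ψ'
  exact ⟨Fermat.Agent.S41.H581.transferAlong_add _ ψ ψ',
    Fermat.Agent.S41.H581.transferAlong_add _ ψ ψ'⟩

end Fermat.Agent.S41.H863
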