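import Mathlib
import Fermat.Agent.S41.Spec.New
import Fermat.Agent.S41.H581.TransferBasic
import Fermat.Agent.S41.H863.TransferReps

/-!
# Row S41, block NEW, leaf NEW-3a (helper863): the involution `ι` commutes with `t₁`, `t₂`

* `transferAlong_eq_sum_reps` : universe-polymorphic form of NEW-2a;
* `exists_reps` : existence of a finite system of right coset representatives together with the
  data `σ`, `k` of a given element;
* `transferAlong_natural` : naturality of `Spec.transferAlong f` with respect to a pair of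
  compatible automorphisms of source and target;
* `newInvolution : Spec.NewInvolutionStatement`.
-/

set_option autoImplicit false

namespace Fermat.Agent.S41.H863

open Subgroup
open Fermat.Agent.S41.Spec CongruenceSubgroup ModularCurve.Period
open scoped MatrixGroups

section General

variable {H G : Type*} [Group H] [Group G] {A : Type*} [AddCommGroup A]

/-- NEW-2a, universe-polymorphic. -/
theorem transferAlong_eq_sum_reps (f : H →* G) (hf : Function.Injective f)
    {ι : Type*} [Fintype ι] (s : ι → G)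
    (hinj : ∀ x y : ι, s x * (s y)⁻¹ ∈ f.range → x = y)
    (hsurj : ∀ g : G, ∃ x : ι, g * (s x)⁻¹ ∈ f.range)
    (ψ : Additive H →+ A) (g : G) (σ : ι → ι) (k : ι → H)
    (hk : ∀ x : ι, s x * g = f (k x) * s (σ x)) :
    transferAlong f ψ (Additive.ofMul g) = ∑ x : ι, ψ (Additive.ofMul (k x)) := by
  have hfin : f.range.FiniteIndex := finiteIndex_of_reps f.range s hinj hsurj
  rw [Fermat.Agent.S41.H581.transferAlong_apply_of f ⟨hf, hfin⟩ ψ g]
  haveI := hfin
  have key := transfer_eq_prod_reps
    ((AddMonoidHom.toMultiplicativeRight ψ).comp (MonoidHom.ofInjective hf).symm.toMonoidHom)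
    s hinj hsurj g σ (fun x => ⟨f (k x), ⟨k x, rfl⟩⟩) (fun x => hk x)
  rw [key, toAdd_prod]
  refine Finset.sum_congr rfl fun x _ => ?_
  have h1 : (MonoidHom.ofInjective hf).symm ⟨f (k x), ⟨k x, rfl⟩⟩ = k x := by
    apply (MonoidHom.ofInjective hf).injective
    rw [MulEquiv.apply_symm_apply]
    rfl
  simp only [MonoidHom.comp_apply, MulEquiv.coe_toMonoidHom, h1]
  rfl

/-- A finite system of representatives of the right cosets of a subgroup of finite index. -/
theorem exists_reps (K : Subgroup G) [K.FiniteIndex] :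
    ∃ s : G ⧸ K → G, (∀ x y : G ⧸ K, s x * (s y)⁻¹ ∈ K → x = y) ∧
      ∀ g : G, ∃ x : G ⧸ K, g * (s x)⁻¹ ∈ K := by
  refine ⟨fun q => (q.out)⁻¹, ?_, ?_⟩
  · intro x y h
    have h1 : ((x.out : G) : G ⧸ K) = ((y.out : G) : G ⧸ K) := by
      rw [QuotientGroup.eq]
      simpa using h
    rwa [QuotientGroup.out_eq', QuotientGroup.out_eq'] at h1
  · intro g
    refine ⟨((g⁻¹ : G) : G ⧸ K), ?_⟩
    have h1 : ((((g⁻¹ : G) : G ⧸ K).out : G) : G ⧸ K) = ((g⁻¹ : G) : G ⧸ K) :=
      QuotientGroup.out_eq' _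
    rw [eq_comm, QuotientGroup.eq, inv_inv] at h1
    simpa using h1

/-- Naturality of the transfer along `f` for compatible automorphisms. -/
theorem transferAlong_natural (f : H →* G) (αH : H →* H) (αG : G ≃* G)
    (hcomm : ∀ h : H, f (αH h) = αG (f h))
    (hrange : ∀ g : G, αG g ∈ f.range → g ∈ f.range)
    (ψ : Additive H →+ A) (g : G) :
    transferAlong f (ψ.comp (MonoidHom.toAdditive αH)) (Additive.ofMul g) =
      transferAlong f ψ (Additive.ofMul (αG g)) := by
  classical
  by_cases h : Function.Injective f ∧ f.range.FiniteIndex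
  · obtain ⟨hf, hfin⟩ := h
    haveI := hfin
    haveI : Fintype (G ⧸ f.range) := f.range.fintypeQuotientOfFiniteIndex
    obtain ⟨s, hinj, hsurj⟩ := exists_reps f.range
    -- the data of `g`
    choose σ hσ using fun x : G ⧸ f.range => hsurj (s x * g)
    choose k hk using hσ
    have hk' : ∀ x, s x * g = f (k x) * s (σ x) := by
      intro x
      rw [hk x, inv_mul_cancel_right]
    rw [transferAlong_eq_sum_reps f hf s hinj hsurj _ g σ k hk']
    -- the transported system
    have hinj' : ∀ x y : G ⧸ f.range, αG (s x) * (αG (s y))⁻¹ ∈ f.range → x = y := by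
      intro x y hxy
      apply hinj x y
      apply hrange
      rwa [map_mul, map_inv]
    have hsurj' : ∀ g' : G, ∃ x : G ⧸ f.range, g' * (αG (s x))⁻¹ ∈ f.range := by
      intro g'
      obtain ⟨x, h0, hx⟩ := hsurj (αG.symm g')
      refine ⟨x, αH h0, ?_⟩
      rw [hcomm, hx, map_mul, map_inv, MulEquiv.apply_symm_apply]
    have hk'' : ∀ x, αG (s x) * αG g = f (αH (k x)) * αG (s (σ x)) := by
      intro x
      rw [← map_mul, hk' x, map_mul, hcomm]
    rw [transferAlong_eq_sum_reps f hf (fun x => αG (s x)) hinj' hsurj' ψ (αG g) σ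
      (fun x => αH (k x)) hk'']
    rfl
  · rw [Fermat.Agent.S41.H581.transferAlong_of_not f h,
      Fermat.Agent.S41.H581.transferAlong_of_not f h]
    rfl

end General

/-! ## The involution `ι` -/

/-- `jConjGamma0` as a multiplicative equivalence. -/
def jConjEquiv (N : ℕ) : Gamma0 N ≃* Gamma0 N :=
  MonoidHom.toMulEquiv (jConjGamma0 N) (jConjGamma0 N)
    (MonoidHom.ext fun γ => jConjGamma0_jConjGamma0 N γ)
    (MonoidHom.ext fun γ => jConjGamma0_jConjGamma0 N γ)

@[simp] theorem jConjEquiv_apply (N : ℕ) (γ : Gamma0 N) : jConjEquiv N γ = jConjGamma0 N γ := rfl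

theorem incl_jConj (N q : ℕ) (γ : Gamma0 (N * q)) :
    incl N q (jConjGamma0 (N * q) γ) = jConjGamma0 N (incl N q γ) := by
  apply Subtype.ext
  rfl

theorem conjDelta_jConj (N q : ℕ) (γ : Gamma0 (N * q)) :
    conjDelta N q (jConjGamma0 (N * q) γ) = jConjGamma0 N (conjDelta N q γ) := by
  apply Subtype.ext
  apply Subtype.ext
  show conjDeltaMatrix q (jConjSL (γ : SL(2, ℤ))) = jConjMat (conjDeltaMatrix q (γ : SL(2, ℤ)))
  obtain ⟨c, hc⟩ := (dvd_of_mem_gamma0_mul γ).1
  ext i j
  fin_cases i <;> fin_cases j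
  · simp [conjDeltaMatrix, jConjMat]
  · simp [conjDeltaMatrix, jConjMat]
  · simp only [conjDeltaMatrix, jConjMat, jConjSL_coe, Fin.mk_one, Fin.isValue, Fin.zero_eta,
      Matrix.of_apply, Matrix.cons_val', Matrix.cons_val_zero, Matrix.cons_val_one,
      Matrix.cons_val_fin_one]
    rw [Int.neg_ediv_of_dvd ⟨c, hc⟩]
  · simp [conjDeltaMatrix, jConjMat]

theorem charInvolution_eq_comp (N : ℕ) (ψ : Additive (Gamma0 N) →+ ℂ) :
    charInvolution N ℂ ℂ ψ = ψ.comp (MonoidHom.toAdditive (jConjGamma0 N)) := rfl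

/-- **NEW-3a**: `ι` commutes with the two transfers. -/
theorem newInvolution : Spec.NewInvolutionStatement := by
  intro N q _ _ _ ψ
  have hr : ∀ (f : Gamma0 (N * q) →* Gamma0 N),
      (∀ h, f (jConjGamma0 (N * q) h) = jConjEquiv N (f h)) →
      transferAlong f (charInvolution (N * q) ℂ ℂ ψ) = charInvolution N ℂ ℂ (transferAlong f ψ) := by
    intro f hcomm
    refine AddMonoidHom.ext fun γ => ?_
    obtain ⟨γ, rfl⟩ := Additive.ofMul.surjective γ
    rw [charInvolution_eq_comp (N * q),
      transferAlong_natural f (jConjGamma0 (N * q)) (jConjEquiv N) hcomm ?_ ψ γ]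
    · rfl
    · rintro g ⟨h, hh⟩
      refine ⟨jConjGamma0 (N * q) h, ?_⟩
      rw [hcomm, hh, jConjEquiv_apply, jConjEquiv_apply, jConjGamma0_jConjGamma0]
  exact ⟨hr (incl N q) (incl_jConj N q), hr (conjDelta N q) (conjDelta_jConj N q)⟩

end Fermat.Agent.S41.H863
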