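import Mathlib
import Fermat.Agent.S41.Spec.New
import Fermat.Agent.S41.H281.HeckeRestrict

/-!
# Row S41, block NEW, leaf NEW-3b (helper863): the involution `ι` commutes with `T_l`

`ι` is composition with `jConjGamma0` (conjugation by `J = diag(1, -1)`).  Conjugating the
Hecke relation `α_x γ = γ_x α_{π x}` by `J` and using `J α_x J = u_x α_{-x}` with `u_x` an upper
unipotent element of `SL(2, ℤ)`, the strong uniqueness `hElt_unique_int` (helper281) gives
`(J γ J)_{-x} = u_x⁻¹ (J γ_x J) u_{π x}`; summing over `x` the `u`-terms cancel.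

* `newInvolutionHecke : Spec.NewInvolutionHeckeStatement`.
-/

set_option autoImplicit false

namespace Fermat.Agent.S41.H863

open CongruenceSubgroup Matrix.SpecialLinearGroup ModularCurve.Period
open P2MW.S_ModularForm_heckeT_slash_eq_self_of_mem_Gamma0.ModularForm.HeckeSlashInvariance
open Fermat.Agent.S29.H642 Fermat.Agent.S41.Spec Fermat.Agent.S41.H281
open scoped MatrixGroups

variable {p : ℕ} {N : ℕ}

/-- `x ↦ -x` on `ℙ¹(𝔽_p)`. -/
def negPt (p : ℕ) (x : OnePoint (ZMod p)) : OnePoint (ZMod p) :=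
  x.elim OnePoint.infty (fun j => ((-j : ZMod p) : OnePoint (ZMod p)))

@[simp] theorem negPt_infty : negPt p OnePoint.infty = OnePoint.infty := rfl

@[simp] theorem negPt_coe (j : ZMod p) :
    negPt p (j : OnePoint (ZMod p)) = ((-j : ZMod p) : OnePoint (ZMod p)) := rfl

theorem negPt_negPt (x : OnePoint (ZMod p)) : negPt p (negPt p x) = x := by
  induction x using OnePoint.rec with
  | infty => rfl
  | coe j => rw [negPt_coe, negPt_coe, neg_neg]

/-- `x ↦ -x` as a permutation of `ℙ¹(𝔽_p)`. -/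
def negEquiv (p : ℕ) : Equiv.Perm (OnePoint (ZMod p)) :=
  ⟨negPt p, negPt p, negPt_negPt, negPt_negPt⟩

@[simp] theorem negEquiv_apply (x : OnePoint (ZMod p)) : negEquiv p x = negPt p x := rfl

/-- The unipotent correction: `J α_x J = u_x α_{-x}`. -/
def uSLneg (p : ℕ) (x : OnePoint (ZMod p)) : SL(2, ℤ) :=
  x.elim 1 (fun j => ⟨!![1, (if j = 0 then 0 else -1); 0, 1], by simp⟩)

@[simp] theorem uSLneg_infty : uSLneg p OnePoint.infty = 1 := rfl

@[simp] theorem uSLneg_coe (j : ZMod p) :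
    ((uSLneg p (j : OnePoint (ZMod p)) : SL(2, ℤ)) : Matrix (Fin 2) (Fin 2) ℤ) =
      !![1, (if j = 0 then 0 else -1); 0, 1] := rfl

theorem uSLneg_mem_Gamma0 (p N : ℕ) (x : OnePoint (ZMod p)) : uSLneg p x ∈ Gamma0 N := by
  induction x using OnePoint.rec with
  | infty => exact one_mem _
  | coe j => rw [Gamma0_mem, uSLneg_coe]; simp

/-- `u_x` as an element of `Γ₀(N)`. -/
def uG (p N : ℕ) (x : OnePoint (ZMod p)) : Gamma0 N := ⟨uSLneg p x, uSLneg_mem_Gamma0 p N x⟩

theorem jConjMat_repInt [NeZero p] (x : OnePoint (ZMod p)) :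
    jConjMat (repInt p x) =
      ((uSLneg p x : SL(2, ℤ)) : Matrix (Fin 2) (Fin 2) ℤ) * repInt p (negPt p x) := by
  induction x using OnePoint.rec with
  | infty =>
    rw [negPt_infty, uSLneg_infty, coe_one, Matrix.one_mul, repInt_infty]
    ext i j
    fin_cases i <;> fin_cases j <;> simp [jConjMat]
  | coe j =>
    rw [negPt_coe, uSLneg_coe, repInt_coe, repInt_coe, ZMod.neg_val]
    by_cases hj : j = 0
    · subst hj
      ext i k
      fin_cases i <;> fin_cases k <;> simp [jConjMat, Matrix.mul_apply, Fin.sum_univ_two]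
    · have hlt : j.val ≤ p := (ZMod.val_lt j).le
      ext i k
      fin_cases i <;> fin_cases k <;>
        simp [jConjMat, Matrix.mul_apply, Fin.sum_univ_two, hj, Nat.cast_sub hlt] <;> ring

theorem jConjMat_coe_jConjGamma0 (γ : Gamma0 N) :
    (((jConjGamma0 N γ : Gamma0 N) : SL(2, ℤ)) : Matrix (Fin 2) (Fin 2) ℤ) =
      jConjMat ((γ : SL(2, ℤ)) : Matrix (Fin 2) (Fin 2) ℤ) := rfl

/-- The Hecke relation conjugated by `J`. -/
theorem hElt_jConj [Fact p.Prime] (hpN : ¬ p ∣ N) (γ : Gamma0 N) (x : OnePoint (ZMod p)) :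
    negPt p (hPerm p (γ : SL(2, ℤ)) x) =
        hPerm p ((jConjGamma0 N γ : Gamma0 N) : SL(2, ℤ)) (negPt p x) ∧
      hElt hpN (jConjGamma0 N γ) (negPt p x) =
        (uG p N x)⁻¹ * jConjGamma0 N (hElt hpN γ x) * uG p N (hPerm p (γ : SL(2, ℤ)) x) := by
  haveI : NeZero p := ⟨(Fact.out : p.Prime).ne_zero⟩
  have h := congrArg jConjMat (hElt_spec_int hpN γ x)
  rw [jConjMat_mul, jConjMat_mul, jConjMat_repInt, jConjMat_repInt] at h
  set δ : Gamma0 N :=
    (uG p N x)⁻¹ * jConjGamma0 N (hElt hpN γ x) * uG p N (hPerm p (γ : SL(2, ℤ)) x) with hδ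
  have hδc : ((δ : SL(2, ℤ)) : Matrix (Fin 2) (Fin 2) ℤ) =
      (((uSLneg p x)⁻¹ : SL(2, ℤ)) : Matrix (Fin 2) (Fin 2) ℤ) *
        jConjMat (((hElt hpN γ x : Gamma0 N) : SL(2, ℤ)) : Matrix (Fin 2) (Fin 2) ℤ) *
        ((uSLneg p (hPerm p (γ : SL(2, ℤ)) x) : SL(2, ℤ)) : Matrix (Fin 2) (Fin 2) ℤ) := by
    rw [hδ]
    rfl
  have hinv : (((uSLneg p x)⁻¹ : SL(2, ℤ)) : Matrix (Fin 2) (Fin 2) ℤ) *
      ((uSLneg p x : SL(2, ℤ)) : Matrix (Fin 2) (Fin 2) ℤ) = 1 := by
    rw [← coe_mul, inv_mul_cancel, coe_one]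
  have key : repInt p (negPt p x) *
      (((jConjGamma0 N γ : Gamma0 N) : SL(2, ℤ)) : Matrix (Fin 2) (Fin 2) ℤ) =
      ((δ : SL(2, ℤ)) : Matrix (Fin 2) (Fin 2) ℤ) *
        repInt p (negPt p (hPerm p (γ : SL(2, ℤ)) x)) := by
    rw [hδc, jConjMat_coe_jConjGamma0]
    calc repInt p (negPt p x) * jConjMat ((γ : SL(2, ℤ)) : Matrix (Fin 2) (Fin 2) ℤ)
        = ((((uSLneg p x)⁻¹ : SL(2, ℤ)) : Matrix (Fin 2) (Fin 2) ℤ) *
            ((uSLneg p x : SL(2, ℤ)) : Matrix (Fin 2) (Fin 2) ℤ)) *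
            (repInt p (negPt p x) * jConjMat ((γ : SL(2, ℤ)) : Matrix (Fin 2) (Fin 2) ℤ)) := by
          rw [hinv, Matrix.one_mul]
      _ = (((uSLneg p x)⁻¹ : SL(2, ℤ)) : Matrix (Fin 2) (Fin 2) ℤ) *
            ((((uSLneg p x : SL(2, ℤ)) : Matrix (Fin 2) (Fin 2) ℤ) * repInt p (negPt p x)) *
              jConjMat ((γ : SL(2, ℤ)) : Matrix (Fin 2) (Fin 2) ℤ)) := by
          simp only [Matrix.mul_assoc]
      _ = _ := by
          rw [h]
          simp only [Matrix.mul_assoc]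
  obtain ⟨h1, h2⟩ := hElt_unique_int hpN (jConjGamma0 N γ) (negPt p x)
    (negPt p (hPerm p (γ : SL(2, ℤ)) x)) (δ : SL(2, ℤ)) key
  exact ⟨h1, (Subtype.ext h2).symm⟩

/-- **NEW-3b**: `ι` commutes with the Hecke transfers, for any coefficient group. -/
theorem heckeTransfer_charInvolution {A : Type*} [AddCommGroup A] [Fact p.Prime] (hpN : ¬ p ∣ N)
    (φ : Additive (Gamma0 N) →+ A) (γ : Gamma0 N) :
    heckeTransfer hpN (φ.comp (MonoidHom.toAdditive (jConjGamma0 N))) (Additive.ofMul γ) =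
      heckeTransfer hpN φ (Additive.ofMul (jConjGamma0 N γ)) := by
  rw [heckeTransfer_apply, heckeTransfer_apply]
  -- reindex the right-hand side by `x ↦ -x`
  rw [← Equiv.sum_comp (negEquiv p)
    (fun y => φ (Additive.ofMul (hElt hpN (jConjGamma0 N γ) y)))]
  have hterm : ∀ x : OnePoint (ZMod p),
      φ (Additive.ofMul (hElt hpN (jConjGamma0 N γ) (negEquiv p x))) =
        φ (Additive.ofMul (jConjGamma0 N (hElt hpN γ x)))
          + (φ (Additive.ofMul (uG p N (hPerm p (γ : SL(2, ℤ)) x)))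
            - φ (Additive.ofMul (uG p N x))) := by
    intro x
    rw [negEquiv_apply, (hElt_jConj hpN γ x).2, ofMul_mul, ofMul_mul, ofMul_inv, map_add, map_add,
      map_neg]
    abel
  rw [Finset.sum_congr rfl fun x _ => hterm x, Finset.sum_add_distrib, Finset.sum_sub_distrib,
    Equiv.sum_comp (hPerm p (γ : SL(2, ℤ))) (fun y => φ (Additive.ofMul (uG p N y))), sub_self,
    add_zero]
  rfl

theorem newInvolutionHecke : Spec.NewInvolutionHeckeStatement := by
  intro M l _ hl φ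
  refine AddMonoidHom.ext fun γ => ?_
  obtain ⟨γ, rfl⟩ := Additive.ofMul.surjective γ
  exact heckeTransfer_charInvolution hl φ γ

end Fermat.Agent.S41.H863
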