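import Mathlib
import Fermat.Agent.S41.Spec.New
import Fermat.Agent.S41.H863.TransferNatural
import Fermat.Agent.S21.H381.PeriodMap
import Fermat.Agent.S29.H642.PeriodHecke

/-!
# Row S41, block NEW (helper863): the generic period–transfer lemma `PT-gen`

Let `c : Γ₀(M) →* Γ₀(N)` be an injective homomorphism "induced by `β ∈ GL₂(ℝ)⁺`", i.e.
`c(k) β = β k` for all `k ∈ Γ₀(M)` (`β = 1` for the inclusion `Γ₀(N q) ≤ Γ₀(N)`,
`β = diag(q, 1)` for `c_δ`), and let `s : ι → Γ₀(N)` be a finite system of representatives of the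
right cosets `c(Γ₀(M)) \ Γ₀(N)`.  If `f` is a cusp form of level `M` and `g` a cusp form of level
`N` with `g = ∑ₓ f ∣[2] (β⁻¹ sₓ)` (the trace of `f ∣ β⁻¹`), then

  `periodMap N g = transferAlong c (periodMap M f)`.

This is the analytic input of `Spec.NewPeriodTraceStatement` (both for `t₁` and `t₂`).
-/

set_option autoImplicit false

namespace Fermat.Agent.S41.H863

open CongruenceSubgroup ModularCurve ModularCurve.Period Matrix.SpecialLinearGroup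
open Fermat.Agent.S41.Spec Fermat.Agent.S29.H642
open UpperHalfPlane hiding I
open scoped MatrixGroups ModularForm Manifold

variable {M N : ℕ} [NeZero M] [NeZero N]

theorem det_pos_inv_mul_mapGL {β : GL (Fin 2) ℝ}
    (hβ : 0 < (β : Matrix (Fin 2) (Fin 2) ℝ).det) (γ : SL(2, ℤ)) :
    0 < ((β⁻¹ * mapGL ℝ γ : GL (Fin 2) ℝ) : Matrix (Fin 2) (Fin 2) ℝ).det := by
  have hdet1 : ((mapGL ℝ γ : GL (Fin 2) ℝ) : Matrix (Fin 2) (Fin 2) ℝ).det = 1 := by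
    rw [← Matrix.GeneralLinearGroup.val_det_apply]; simp
  have h1 : ((β⁻¹ * mapGL ℝ γ : GL (Fin 2) ℝ) : Matrix (Fin 2) (Fin 2) ℝ).det
      = ((β : Matrix (Fin 2) (Fin 2) ℝ).det)⁻¹ := by
    rw [← Matrix.GeneralLinearGroup.val_det_apply, map_mul, map_inv, Units.val_mul,
      Units.val_inv_eq_inv_val, Matrix.GeneralLinearGroup.val_det_apply,
      Matrix.GeneralLinearGroup.val_det_apply, hdet1, mul_one]
  rw [h1]
  exact inv_pos.mpr hβ

/-- **PT-gen**. -/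
theorem periodMap_eq_transferAlong (c : Gamma0 M →* Gamma0 N) (hc : Function.Injective c)
    (β : GL (Fin 2) ℝ) (hβ : 0 < (β : Matrix (Fin 2) (Fin 2) ℝ).det)
    (hcβ : ∀ k : Gamma0 M, mapGL ℝ ((c k : Gamma0 N) : SL(2, ℤ)) * β
      = β * mapGL ℝ (k : SL(2, ℤ)))
    {ι : Type*} [Fintype ι] (s : ι → Gamma0 N)
    (hinj : ∀ x y : ι, s x * (s y)⁻¹ ∈ c.range → x = y)
    (hsurj : ∀ g : Gamma0 N, ∃ x : ι, g * (s x)⁻¹ ∈ c.range)
    (f : CuspForm (Gamma0 M) 2) (g : CuspForm (Gamma0 N) 2)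
    (hg : (⇑g : ℍ → ℂ) =
      ∑ x : ι, ((⇑f : ℍ → ℂ) ∣[(2 : ℤ)] (β⁻¹ * mapGL ℝ ((s x : Gamma0 N) : SL(2, ℤ))))) :
    periodMap N g = transferAlong c (periodMap M f) := by
  classical
  obtain ⟨F, hF⟩ := Fermat.Agent.S21.H381.exists_hasEquivariantPrimitive f
  obtain ⟨G, hG⟩ := Fermat.Agent.S21.H381.exists_hasEquivariantPrimitive g
  -- the explicit primitive of `g`
  set FT : ℍ → ℂ := fun w => ∑ x : ι, F ((β⁻¹ * mapGL ℝ ((s x : Gamma0 N) : SL(2, ℤ))) • w)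
    with hFT
  have hFTd : ∀ τ : ℍ, HasDerivAt (FT ∘ ofComplex) (g τ) ↑τ := by
    intro τ
    have h1 : (FT ∘ ofComplex) = fun z : ℂ => ∑ x : ι,
        ((fun w : ℍ => F ((β⁻¹ * mapGL ℝ ((s x : Gamma0 N) : SL(2, ℤ))) • w)) ∘ ofComplex) z := by
      funext z
      simp [hFT]
    have h2 : g τ = ∑ x : ι,
        ((⇑f : ℍ → ℂ) ∣[(2 : ℤ)] (β⁻¹ * mapGL ℝ ((s x : Gamma0 N) : SL(2, ℤ)))) τ := by
      rw [hg, Finset.sum_apply]
    rw [h1, h2]
    exact HasDerivAt.fun_sum fun x _ =>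
      hasDerivAt_comp_smul_GL hF.1 _ (det_pos_inv_mul_mapGL hβ _) τ
  refine AddMonoidHom.ext fun γ' => ?_
  obtain ⟨γ, rfl⟩ : ∃ γ : Gamma0 N, Additive.ofMul γ = γ' := ⟨Additive.toMul γ', rfl⟩
  -- the coset data of `γ`
  choose σ hσ using fun x : ι => hsurj (s x * γ)
  choose k hk using hσ
  have hk' : ∀ x, s x * γ = c (k x) * s (σ x) := by
    intro x
    rw [hk x, inv_mul_cancel_right]
  have hσinj : Function.Injective σ := by
    intro x y hxy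
    apply hinj x y
    have h1 : s x * (s y)⁻¹ = (s x * γ) * (s y * γ)⁻¹ := by group
    rw [h1, hk' x, hk' y, hxy]
    refine ⟨k x * (k y)⁻¹, ?_⟩
    rw [map_mul, map_inv]
    group
  have hσbij : Function.Bijective σ := Finite.injective_iff_bijective.mp hσinj
  rw [transferAlong_eq_sum_reps c hc s hinj hsurj (periodMap M f) γ σ k hk',
    Fermat.Agent.S21.H381.periodMap_apply hG γ UpperHalfPlane.I]
  have hconst := Fermat.Agent.S21.H381.sub_const_of_hasDerivAt hG.1 hFTd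
    ((γ : SL(2, ℤ)) • UpperHalfPlane.I) UpperHalfPlane.I
  have hGF : G ((γ : SL(2, ℤ)) • UpperHalfPlane.I) - G UpperHalfPlane.I
      = FT ((γ : SL(2, ℤ)) • UpperHalfPlane.I) - FT UpperHalfPlane.I := by
    linear_combination hconst
  rw [hGF, hFT]
  simp only
  have hterm : ∀ x : ι,
      F ((β⁻¹ * mapGL ℝ ((s x : Gamma0 N) : SL(2, ℤ))) • ((γ : SL(2, ℤ)) • UpperHalfPlane.I))
        = periodMap M f (Additive.ofMul (k x))
          + F ((β⁻¹ * mapGL ℝ ((s (σ x) : Gamma0 N) : SL(2, ℤ))) • UpperHalfPlane.I) := by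
    intro x
    have hs : mapGL ℝ ((s x : Gamma0 N) : SL(2, ℤ)) * mapGL ℝ (γ : SL(2, ℤ))
        = mapGL ℝ ((c (k x) : Gamma0 N) : SL(2, ℤ)) *
          mapGL ℝ ((s (σ x) : Gamma0 N) : SL(2, ℤ)) := by
      rw [← map_mul, ← map_mul, ← Subgroup.coe_mul, ← Subgroup.coe_mul, hk' x]
    have hcomm : β⁻¹ * mapGL ℝ ((c (k x) : Gamma0 N) : SL(2, ℤ))
        = mapGL ℝ ((k x : Gamma0 M) : SL(2, ℤ)) * β⁻¹ := by
      have := hcβ (k x)
      calc β⁻¹ * mapGL ℝ ((c (k x) : Gamma0 N) : SL(2, ℤ))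
          = β⁻¹ * (mapGL ℝ ((c (k x) : Gamma0 N) : SL(2, ℤ)) * β) * β⁻¹ := by group
        _ = β⁻¹ * (β * mapGL ℝ ((k x : Gamma0 M) : SL(2, ℤ))) * β⁻¹ := by rw [this]
        _ = _ := by group
    have e1 : (β⁻¹ * mapGL ℝ ((s x : Gamma0 N) : SL(2, ℤ))) •
          ((γ : SL(2, ℤ)) • UpperHalfPlane.I)
        = ((k x : Gamma0 M) : SL(2, ℤ)) •
            ((β⁻¹ * mapGL ℝ ((s (σ x) : Gamma0 N) : SL(2, ℤ))) • UpperHalfPlane.I) := by
      show (β⁻¹ * mapGL ℝ ((s x : Gamma0 N) : SL(2, ℤ))) •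
          (mapGL ℝ (γ : SL(2, ℤ)) • UpperHalfPlane.I)
        = mapGL ℝ ((k x : Gamma0 M) : SL(2, ℤ)) •
            ((β⁻¹ * mapGL ℝ ((s (σ x) : Gamma0 N) : SL(2, ℤ))) • UpperHalfPlane.I)
      rw [← mul_smul, ← mul_smul, mul_assoc, hs, ← mul_assoc, hcomm, mul_assoc]
    rw [e1, Fermat.Agent.S21.H381.periodMap_apply hF (k x)
      ((β⁻¹ * mapGL ℝ ((s (σ x) : Gamma0 N) : SL(2, ℤ))) • UpperHalfPlane.I)]
    ring
  have hsum : ∑ x : ι, F ((β⁻¹ * mapGL ℝ ((s (σ x) : Gamma0 N) : SL(2, ℤ))) • UpperHalfPlane.I)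
      = ∑ x : ι, F ((β⁻¹ * mapGL ℝ ((s x : Gamma0 N) : SL(2, ℤ))) • UpperHalfPlane.I) :=
    Equiv.sum_comp (Equiv.ofBijective σ hσbij)
      (fun y => F ((β⁻¹ * mapGL ℝ ((s y : Gamma0 N) : SL(2, ℤ))) • UpperHalfPlane.I))
  rw [Finset.sum_congr rfl fun x _ => hterm x, Finset.sum_add_distrib, hsum]
  ring

end Fermat.Agent.S41.H863
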